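import Fermat.Agent.TraceDistribution.Counts
import Mathlib.LinearAlgebra.Dimension.FreeAndStrongRankCondition
import Mathlib.LinearAlgebra.FiniteDimensional.Basic
import Mathlib.LinearAlgebra.Matrix.ToLin
import Mathlib.Algebra.Module.ZMod
import Mathlib.FieldTheory.Finiteness
import Mathlib.Data.Real.Basic
import Mathlib.Tactic

/-!
# Affine maps of a finite plane with a fixed point

An invertible affine map `v ↦ g v + t` of `k²` has a fixed point iff `t` is in the image of `g - 1`.
-/

set_option autoImplicit false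

noncomputable section

open Matrix Finset
open scoped Classical

namespace FA.BashmakovDensity

variable {k : Type*} [Field k] [Fintype k]

omit [Fintype k] in
/-- A fixed point of an affine map. -/
theorem exists_fixed_iff (g : Matrix (Fin 2) (Fin 2) k) (t : Fin 2 → k) :
    (∃ v, g *ᵥ v + t = v) ↔ t ∈ LinearMap.range (g - 1).mulVecLin := by
  constructor
  · rintro ⟨v, hv⟩
    refine ⟨-v, ?_⟩
    rw [mulVecLin_apply, mulVec_neg, sub_mulVec, one_mulVec, neg_sub]
    exact sub_eq_iff_eq_add'.mpr hv.symm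
  · rintro ⟨w, hw⟩
    refine ⟨-w, ?_⟩
    rw [← hw, mulVecLin_apply, sub_mulVec, one_mulVec, mulVec_neg]
    abel

/-- The size of the image of a singular nonzero map. -/
theorem natCard_range_of_singular {A : Matrix (Fin 2) (Fin 2) k} (h0 : A ≠ 0) (hd : A.det = 0) :
    Nat.card (LinearMap.range A.mulVecLin) = Fintype.card k := by
  have h2 : Module.finrank k (Fin 2 → k) = 2 := by simp
  have hne : Module.finrank k (LinearMap.range A.mulVecLin) ≠ 0 := fun h => h0 <| by
    have hbot := Submodule.finrank_eq_zero.mp h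
    ext i j
    have := LinearMap.range_eq_bot.mp hbot
    have e := congrFun (LinearMap.congr_fun this (Pi.single j 1)) i
    simpa [mulVec_single_one] using e
  have hlt : Module.finrank k (LinearMap.range A.mulVecLin) ≠ 2 := fun h => by
    have htop : LinearMap.range A.mulVecLin = ⊤ :=
      Submodule.eq_top_of_finrank_eq (by rw [h, h2])
    have hu : IsUnit A := mulVec_surjective_iff_isUnit.mp (LinearMap.range_eq_top.mp htop)
    rw [Matrix.isUnit_iff_isUnit_det, hd] at hu
    exact not_isUnit_zero hu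
  have hle := Submodule.finrank_le (LinearMap.range A.mulVecLin)
  rw [h2] at hle
  rw [Module.natCard_eq_pow_finrank (K := k),
    show Module.finrank k (LinearMap.range A.mulVecLin) = 1 by omega, pow_one,
    Nat.card_eq_fintype_card]

/-- **Summing over the three kinds of `g`**: the identity, the others with fixed vectors and the
rest. -/
theorem sum_strata_gl2 (a b d : ℝ) :
    ∑ g : GL (Fin 2) k, (if g = 1 then d else if g.val.trace = g.val.det + 1 then b else a) =
      ((Fintype.card k : ℝ) ^ 4 - 2 * (Fintype.card k : ℝ) ^ 3 - (Fintype.card k : ℝ) ^ 2 +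
          3 * (Fintype.card k : ℝ)) * a +
        ((Fintype.card k : ℝ) ^ 3 - 2 * (Fintype.card k : ℝ) - 1) * b + d := by
  set c := Fintype.card k with hc
  rw [Finset.sum_ite, Finset.sum_ite]
  simp only [Finset.sum_const, nsmul_eq_mul]
  have hone : #{g : GL (Fin 2) k | g = 1} = 1 := by
    rw [Finset.filter_eq']; simp
  have hfix : (#{g : GL (Fin 2) k | g.val.trace = g.val.det + 1} : ℝ) = (c : ℝ) ^ 3 - 2 * c := by
    have h := TraceDist.card_fixing (k := k)
    rw [Nat.card_eq_fintype_card, Fintype.card_subtype, ← hc] at h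
    rw [eq_sub_iff_add_eq]
    exact_mod_cast h
  have hall : (Fintype.card (GL (Fin 2) k) : ℝ) = ((c : ℝ) ^ 2 - 1) * ((c : ℝ) ^ 2 - c) := by
    rw [← Nat.card_eq_fintype_card, TraceDist.card_gl2, ← hc, Nat.cast_mul,
      Nat.cast_sub (Nat.one_le_pow _ _ Fintype.card_pos),
      Nat.cast_sub (Nat.le_self_pow two_ne_zero c), Nat.cast_pow, Nat.cast_one]
  have hmem1 : ((1 : GL (Fin 2) k).val).trace = ((1 : GL (Fin 2) k).val).det + 1 := by
    simp
    ring
  have hR1 : (#((Finset.univ.filter fun g : GL (Fin 2) k => ¬g = 1).filter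
      (fun g => g.val.trace = g.val.det + 1)) : ℝ) = (c : ℝ) ^ 3 - 2 * c - 1 := by
    have : #((Finset.univ.filter fun g : GL (Fin 2) k => ¬g = 1).filter
        (fun g => g.val.trace = g.val.det + 1)) + 1 =
        #{g : GL (Fin 2) k | g.val.trace = g.val.det + 1} := by
      rw [← Finset.card_erase_add_one (s := univ.filter fun g : GL (Fin 2) k =>
        g.val.trace = g.val.det + 1) (a := (1 : GL (Fin 2) k))
        (by simp only [mem_filter, mem_univ, true_and]; exact hmem1)]
      refine congrArg (fun s : Finset (GL (Fin 2) k) => #s + 1) ?_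
      ext g
      simp [and_comm]
    rw [← hfix, ← this]
    push_cast
    ring
  have hR2 : (#((Finset.univ.filter fun g : GL (Fin 2) k => ¬g = 1).filter
      (fun g => ¬g.val.trace = g.val.det + 1)) : ℝ) =
      ((c : ℝ) ^ 2 - 1) * ((c : ℝ) ^ 2 - c) - ((c : ℝ) ^ 3 - 2 * c) := by
    have : #((Finset.univ.filter fun g : GL (Fin 2) k => ¬g = 1).filter
        (fun g => ¬g.val.trace = g.val.det + 1)) +
        #{g : GL (Fin 2) k | g.val.trace = g.val.det + 1} = Fintype.card (GL (Fin 2) k) := by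
      rw [Finset.filter_filter, ← Finset.card_univ, add_comm,
        ← Finset.card_filter_add_card_filter_not (s := (univ : Finset (GL (Fin 2) k)))
          (fun g => g.val.trace = g.val.det + 1)]
      congr 2
      refine Finset.filter_congr fun g _ => ?_
      exact ⟨fun h => h.2, fun h => ⟨fun e => h (by rw [e]; exact hmem1), h⟩⟩
    rw [← hall, ← hfix, ← this]
    push_cast
    ring
  rw [hR1, hR2, hone]
  push_cast
  ring

/-- The sum of the `r`-th powers of the sizes of the images of `g - 1`. -/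
theorem sum_natCard_range_pow (r : ℕ) :
    ∑ g : GL (Fin 2) k, (Nat.card (LinearMap.range (g.val - 1).mulVecLin) : ℝ) ^ r =
      ((Fintype.card k : ℝ) ^ 4 - 2 * (Fintype.card k : ℝ) ^ 3 - (Fintype.card k : ℝ) ^ 2 +
          3 * (Fintype.card k : ℝ)) * ((Fintype.card k : ℝ) ^ 2) ^ r +
        ((Fintype.card k : ℝ) ^ 3 - 2 * (Fintype.card k : ℝ) - 1) * (Fintype.card k : ℝ) ^ r +
        1 := by
  set c := Fintype.card k with hc
  have hcard : ∀ g : GL (Fin 2) k, (Nat.card (LinearMap.range (g.val - 1).mulVecLin) : ℝ) =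
      if g = 1 then 1 else if g.val.trace = g.val.det + 1 then (c : ℝ) else (c : ℝ) ^ 2 := by
    intro g
    have hdet : (g.val - 1).det = g.val.det + 1 - g.val.trace := by
      simp [det_fin_two, trace_fin_two]
      ring
    split_ifs with h1 h2
    · subst h1
      rw [Units.val_one, sub_self, mulVecLin_zero, LinearMap.range_zero]
      simp
    · rw [natCard_range_of_singular (A := g.val - 1)
        (sub_ne_zero.mpr fun h => h1 (Units.ext h)) (by rw [hdet, h2, sub_self])]
    · have hu : IsUnit (g.val - 1) := by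
        rw [Matrix.isUnit_iff_isUnit_det, hdet, isUnit_iff_ne_zero, sub_ne_zero]
        exact fun h => h2 h.symm
      rw [LinearMap.range_eq_top.mpr (mulVec_surjective_iff_isUnit.mpr hu),
        Nat.card_congr Submodule.topEquiv.toEquiv, Nat.card_fun, Nat.card_fin,
        Nat.card_eq_fintype_card, Nat.cast_pow]
  rw [Finset.sum_congr rfl fun g _ => congrArg (· ^ r) (hcard g)]
  simp only [apply_ite (fun x : ℝ => x ^ r), one_pow]
  exact sum_strata_gl2 _ _ _

/-- **The families of translations making one linear map fix a point in each.** -/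
theorem card_affine_fixing_family (ι : Type*) [Fintype ι] :
    (Nat.card {a : GL (Fin 2) k × (ι → Fin 2 → k) // ∀ i, ∃ v, a.1.val *ᵥ v + a.2 i = v} : ℝ) =
      ((Fintype.card k : ℝ) ^ 4 - 2 * (Fintype.card k : ℝ) ^ 3 - (Fintype.card k : ℝ) ^ 2 +
          3 * (Fintype.card k : ℝ)) * ((Fintype.card k : ℝ) ^ 2) ^ Fintype.card ι +
        ((Fintype.card k : ℝ) ^ 3 - 2 * (Fintype.card k : ℝ) - 1) *
          (Fintype.card k : ℝ) ^ Fintype.card ι + 1 := by
  have e : {a : GL (Fin 2) k × (ι → Fin 2 → k) // ∀ i, ∃ v, a.1.val *ᵥ v + a.2 i = v} ≃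
      Σ g : GL (Fin 2) k, ι → LinearMap.range (g.val - 1).mulVecLin :=
    { toFun := fun a => ⟨a.1.1, fun i => ⟨a.1.2 i, (exists_fixed_iff _ _).mp (a.2 i)⟩⟩
      invFun := fun s => ⟨(s.1, fun i => (s.2 i).1), fun i => (exists_fixed_iff _ _).mpr (s.2 i).2⟩
      left_inv := fun _ => rfl
      right_inv := fun _ => rfl }
  rw [Nat.card_congr e, Nat.card_sigma, Nat.cast_sum, ← sum_natCard_range_pow]
  exact Finset.sum_congr rfl fun g _ => by
    rw [Nat.card_fun, Nat.cast_pow, Nat.card_eq_fintype_card (α := ι)]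

/-- The density of primes at which `r` independent points are `p` times a point. -/
def fixDensityFamily (p r : ℕ) : ℝ :=
  (((p : ℝ) ^ 4 - 2 * (p : ℝ) ^ 3 - (p : ℝ) ^ 2 + 3 * p) * ((p : ℝ) ^ 2) ^ r +
      ((p : ℝ) ^ 3 - 2 * p - 1) * (p : ℝ) ^ r + 1) /
    (((p : ℝ) ^ 2 - 1) * ((p : ℝ) ^ 2 - p) * ((p : ℝ) ^ 2) ^ r)

/-- With many points the density tends to that of the primes with no point of order `p`. -/
theorem tendsto_fixDensityFamily {p : ℕ} (hp : 2 ≤ p) :
    Filter.Tendsto (fixDensityFamily p) Filter.atTop (nhds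
      (((p : ℝ) ^ 4 - 2 * (p : ℝ) ^ 3 - (p : ℝ) ^ 2 + 3 * p) /
        (((p : ℝ) ^ 2 - 1) * ((p : ℝ) ^ 2 - p)))) := by
  have h2 : (2 : ℝ) ≤ p := by exact_mod_cast hp
  set x : ℝ := (p : ℝ) with hx
  set A := x ^ 4 - 2 * x ^ 3 - x ^ 2 + 3 * x
  set B := x ^ 3 - 2 * x - 1
  set D := (x ^ 2 - 1) * (x ^ 2 - x) with hD
  have hD0 : D ≠ 0 := by
    rw [hD]; exact mul_ne_zero (by nlinarith) (by nlinarith)
  have hy : Filter.Tendsto (fun r : ℕ => (x⁻¹) ^ r) Filter.atTop (nhds 0) :=
    tendsto_pow_atTop_nhds_zero_of_lt_one (by positivity) (inv_lt_one_of_one_lt₀ (by linarith))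
  have h := (((hy.mul hy).add (hy.const_mul B)).add_const A).div_const D
  simp only [mul_zero, add_zero, zero_add] at h
  refine h.congr fun r => ?_
  have hxr : x ^ r ≠ 0 := pow_ne_zero _ (by linarith)
  show _ = (A * (x ^ 2) ^ r + B * x ^ r + 1) / (D * (x ^ 2) ^ r)
  rw [← pow_mul, mul_comm 2 r, pow_mul, inv_pow]
  generalize x ^ r = z at hxr ⊢
  field_simp
  ring

/-- The density of Lang and Trotter. -/
def fixDensity (p : ℕ) : ℝ :=
  (((p : ℝ) ^ 4 - 2 * (p : ℝ) ^ 3 - (p : ℝ) ^ 2 + 3 * p) * (p : ℝ) ^ 2 +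
      ((p : ℝ) ^ 3 - 2 * p - 1) * p + 1) /
    (((p : ℝ) ^ 2 - 1) * ((p : ℝ) ^ 2 - p) * (p : ℝ) ^ 2)

theorem fixDensityFamily_one (p : ℕ) : fixDensityFamily p 1 = fixDensity p := by
  rw [fixDensityFamily, fixDensity, pow_one, pow_one]

/-- It is strictly between zero and one. -/
theorem fixDensity_mem {p : ℕ} (hp : 3 ≤ p) : fixDensity p ∈ Set.Ioo (0 : ℝ) 1 := by
  have h3 : (3 : ℝ) ≤ p := by exact_mod_cast hp
  unfold fixDensity
  set x : ℝ := (p : ℝ)
  have hd : 0 < (x ^ 2 - 1) * (x ^ 2 - x) * x ^ 2 := by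
    have a1 : 0 < x ^ 2 - 1 := by nlinarith
    have a2 : 0 < x ^ 2 - x := by nlinarith
    positivity
  have hR1 : 0 < x ^ 3 - 2 * x - 1 := by nlinarith
  have hx0 : 0 < x := by linarith
  have hR2 : 0 < x ^ 4 - 2 * x ^ 3 - x ^ 2 + 3 * x := by nlinarith [mul_pos hx0 hx0]
  constructor
  · exact div_pos (by positivity) hd
  · rw [div_lt_one hd]
    have e : (x ^ 2 - 1) * (x ^ 2 - x) = (x ^ 4 - 2 * x ^ 3 - x ^ 2 + 3 * x) +
        (x ^ 3 - 2 * x - 1) + 1 := by ring
    rw [e]
    have hx1 : x < x ^ 2 := by nlinarith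
    nlinarith [mul_lt_mul_of_pos_left hx1 hR1]

end FA.BashmakovDensity

end
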