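import Fermat.Agent.TraceDistribution.Basic
import Fermat.Agent.Root.SummaryPointDivisibility
import Fermat.Agent.Root.SummaryBashmakov
import Fermat.Agent.Root.SummaryGaloisGL2

/-!
# A Frobenius with a fixed point in a fibre of multiplication by `l`

If a Frobenius at a prime of good reduction fixes a point of the fibre over a rational point `P`,
then `P` is `l` times a point modulo that prime.
-/

set_option autoImplicit false
set_option linter.style.haveILetI false
set_option linter.unusedSectionVars false

noncomputable section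

open Matrix WeierstrassCurve NumberField IsDedekindDomain FA.Frob FA.EC FA.RT FA.PointDiv
open FA.Local (smul_some)
open scoped WeierstrassCurve.Affine Classical Pointwise

local notation "Qb" => AlgebraicClosure ℚ
local notation "GQ" => AlgebraicClosure ℚ ≃ₐ[ℚ] AlgebraicClosure ℚ

namespace FA.BashmakovDensity

variable {W : WeierstrassCurve ℤ} [(ratCurve W).IsElliptic]

/-- The elements of a field of characteristic `q` fixed by Frobenius are those of the prime
field. -/
theorem exists_castHom_eq {q : ℕ} [Fact q.Prime] {k : Type*} [Field k] [CharP k q] {x : k}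
    (hx : x ^ q = x) : ∃ a : ZMod q, ZMod.castHom (dvd_refl q) k a = x := by
  by_contra hcon
  push Not at hcon
  have hq : 1 < q := (Fact.out : q.Prime).one_lt
  set f : Polynomial k := Polynomial.X ^ q - Polynomial.X with hf
  have hf0 : f ≠ 0 := FiniteField.X_pow_card_sub_X_ne_zero k hq
  have hdeg : f.natDegree = q := FiniteField.X_pow_card_sub_X_natDegree_eq k hq
  let s : Finset k := insert x ((Finset.univ : Finset (ZMod q)).image (ZMod.castHom (dvd_refl q) k))
  have hsub : s ⊆ f.roots.toFinset := fun y hy => by
    rw [Multiset.mem_toFinset, Polynomial.mem_roots hf0, Polynomial.IsRoot.def]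
    simp only [hf, Polynomial.eval_sub, Polynomial.eval_pow, Polynomial.eval_X, sub_eq_zero]
    rcases Finset.mem_insert.mp hy with rfl | hy
    · exact hx
    · obtain ⟨a, -, rfl⟩ := Finset.mem_image.mp hy
      rw [← map_pow, ZMod.pow_card]
  have hs : s.card = q + 1 := by
    rw [Finset.card_insert_of_notMem, Finset.card_image_of_injective _ (RingHom.injective _),
      Finset.card_univ, ZMod.card]
    intro h
    obtain ⟨a, -, ha⟩ := Finset.mem_image.mp h
    exact hcon a ha
  have := (Finset.card_le_card hsub).trans
    ((Multiset.toFinset_card_le _).trans (f.card_roots'))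
  omega

/-- A point fixed by a Frobenius has reduction defined over the prime field. -/
theorem exists_red_eq_of_fixed {q : ℕ} [hq : Fact q.Prime] (hgood : W.IsGoodPrimeFor q)
    {A : ValuationSubring Qb} [CharP (Res A) q]
    [(redCurve A ((ratCurve W)⁄Qb).toAffine (intCoeff_ratCurve W A)).IsElliptic]
    (hA : A.LiesOverPrime q) {σ : GQ} (hσ : A.IsFrobeniusAt σ q)
    {Q : ((ratCurve W).toAffine⁄Qb).Point} (hfix : σ • Q = Q) :
    ∃ R : (W.map (Int.castRingHom (ZMod q))).toAffine.Point,
      mapHom (ZMod.castHom (dvd_refl q) (Res A)) (map_castHom W (A := A)) R =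
        redHom (intCoeff_ratCurve W A) (valuation_Δ_ratCurve W hq.out hA hgood) Q := by
  set r := redHom (intCoeff_ratCurve W A) (valuation_Δ_ratCurve W hq.out hA hgood) with hr
  set m := mapHom (ZMod.castHom (dvd_refl q) (Res A)) (map_castHom W (A := A)) with hm
  rcases Q with _ | ⟨a, b, hab⟩
  · exact ⟨0, (map_zero m).trans (map_zero r).symm⟩
  by_cases ha : a ∈ A
  · have hb := y_mem (intCoeff_ratCurve W A) hab.1 ha
    obtain ⟨k₁, e₁⟩ := redFun_of_mem (intCoeff_ratCurve W A) hab ha
    obtain ⟨h'', e'⟩ := smul_some (σ := σ) (ratCurve W) hab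
    obtain ⟨hσa, hσb⟩ : σ a = a ∧ σ b = b := by
      have := e'.symm.trans hfix
      simpa [Affine.Point.some.injEq] using this
    have hpow : ∀ z, z ∈ A → σ z = z → resOf A z ^ q = resOf A z := by
      intro z hz hzz
      have hstab : σ • A = A := hσ.mem_decompositionSubgroup
      have hmem : σ z ∈ A := by rw [hzz]; exact hz
      have e := hσ.smul_residue_eq (IsLocalRing.residue A ⟨z, hz⟩)
      rw [← IsLocalRing.ResidueField.residue_smul] at e
      rw [resOf, dif_pos hz, ← e]
      congr 1
      exact Subtype.ext hzz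
    obtain ⟨c, hc⟩ := exists_castHom_eq (hpow a ha hσa)
    obtain ⟨d, hd⟩ := exists_castHom_eq (hpow b hb hσb)
    have hcd : (W.map (Int.castRingHom (ZMod q))).toAffine.Nonsingular c d := by
      refine ((W.map (Int.castRingHom (ZMod q))).toAffine.map_nonsingular
        (ZMod.castHom (dvd_refl q) (Res A)).injective _ _).mp ?_
      rw [hc, hd]
      exact (congrArg (fun V : WeierstrassCurve (Res A) => V.toAffine.Nonsingular _ _)
        (map_castHom W (A := A))).mpr k₁
    refine ⟨.some c d hcd, ?_⟩
    rw [hr, redHom_apply]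
    refine Eq.trans ?_ e₁.symm
    rw [hm, mapHom_some]
    simp only [Affine.Point.some.injEq]
    exact ⟨hc, hd⟩
  · refine ⟨0, (map_zero m).trans ?_⟩
    rw [hr, redHom_apply, redFun, dif_neg ha]

/-- A Frobenius with a fixed point in the fibre makes `P` divisible modulo the prime. -/
theorem locDiv_of_exists_fixed {l : ℕ} {x y : ℚ}
    (h : (ratCurve W).toAffine.Nonsingular x y) {q : ℕ} [hq : Fact q.Prime]
    (hgood : W.IsGoodPrimeFor q) (hx : ¬ q ∣ x.den) (hy : ¬ q ∣ y.den)
    {A : ValuationSubring Qb} (hA : A.LiesOverPrime q) {σ : GQ} (hσ : A.IsFrobeniusAt σ q)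
    {Q : Fib W l (.some x y h)} (hQ : fibHom W l (.some x y h) σ Q = Q) : LocDiv W l q x y := by
  haveI : CharP (Res A) q := residueField_charP A hq.out hA
  haveI := reductionMod_isElliptic W hgood
  haveI := redCurve_isElliptic (intCoeff_ratCurve W A) (valuation_Δ_ratCurve W hq.out hA hgood)
  set r := redHom (intCoeff_ratCurve W A) (valuation_Δ_ratCurve W hq.out hA hgood) with hr
  set m := mapHom (ZMod.castHom (dvd_refl q) (Res A)) (map_castHom W (A := A)) with hm
  obtain ⟨h', hP⟩ := redHom_up W hA hgood h hx hy
  refine ⟨hq, h', ?_⟩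
  suffices hR : ∃ R, m R = r Q.1 by
    obtain ⟨R, hR⟩ := hR
    refine ⟨R, mapHom_injective (ZMod.castHom (dvd_refl q) (Res A)) (map_castHom W (A := A)) ?_⟩
    show m (l • R) = m _
    rw [map_nsmul, hR, ← map_nsmul, Q.2]
    exact hP
  exact exists_red_eq_of_fixed hgood hA hσ (congrArg Subtype.val hQ)

end FA.BashmakovDensity

end
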