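import Fermat.Agent.BashmakovDensity.Count
import Fermat.Agent.BashmakovDensity.Fibre
import Fermat.Agent.Root.SummaryBashmakovFamily

/-!
# The group of several fibres when Galois gives all automorphisms with all translations

For points independent modulo `p` the group acting on the fibres of multiplication by `p` is the
semidirect product of `GL₂(𝔽_p)` and one plane for each point, and the primes modulo which all the
points are divisible are those whose Frobenius has a fixed point in every fibre.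
-/

set_option autoImplicit false
set_option linter.style.haveILetI false
set_option linter.unusedSectionVars false

noncomputable section

open Matrix WeierstrassCurve NumberField IsDedekindDomain FA.Frob FA.EC FA.RT FA.PointDiv
open FA.Local (smul_some)
open scoped WeierstrassCurve.Affine Classical Pointwise

local notation "Qb" => AlgebraicClosure ℚ
local notation "GQ" => AlgebraicClosure ℚ ≃ₐ[ℚ] AlgebraicClosure ℚ

namespace FA.BashmakovDensity

variable (W : WeierstrassCurve ℤ) [(ratCurve W).IsElliptic] {p : ℕ} [hp : Fact p.Prime]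
variable {ι : Type} [Fintype ι]

/-- Galois gives every automorphism of `E[p]` with every family of translations of `p`-th parts. -/
def AffineImageFamily (p : ℕ) (P : ι → (ratCurve W).toAffine.Point) : Prop :=
  ∀ (Q : ∀ i, Fib W p (P i))
    (φ : Submodule.torsionBy ℤ ((ratCurve W)⁄Qb).Point (p : ℤ) ≃+
      Submodule.torsionBy ℤ ((ratCurve W)⁄Qb).Point (p : ℤ))
    (t : ι → Submodule.torsionBy ℤ ((ratCurve W)⁄Qb).Point (p : ℤ)),
    ∃ σ : GQ, (∀ T, σ • T.1 = (φ T).1) ∧ ∀ i, σ • (Q i).1 = (Q i).1 + (t i).1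

variable {W}

/-- Points independent modulo `p` with full image on `E[p]` give all of it. -/
theorem affineImageFamily (hp2 : p ≠ 2)
    (hfull : ∀ φ : Submodule.torsionBy ℤ ((ratCurve W).toAffine⁄Qb).Point (p : ℤ) ≃+
        Submodule.torsionBy ℤ ((ratCurve W).toAffine⁄Qb).Point (p : ℤ),
      ∃ σ : GQ, ∀ T, Affine.Point.map σ.toAlgHom T.1 = (φ T).1)
    {P : ι → (ratCurve W).toAffine.Point}
    (hP : ∀ a : ι → ℤ, (∃ i, ¬ (p : ℤ) ∣ a i) → ∀ R, p • R ≠ ∑ i, a i • P i) :
    AffineImageFamily W p P := by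
  intro Q
  have e1 : (p : ℤ) ^ 1 = (p : ℤ) := pow_one _
  have hQ : ∀ i, p ^ 1 • (Q i).1 =
      Affine.Point.map (W' := (ratCurve W).toAffine) (Algebra.ofId ℚ Qb) (P i) := fun i => by
    rw [pow_one, (Q i).2]
    cases P i <;> rfl
  have h := fun hf => FA.Summary.bashmakovFamily (ratCurve W) hp.out hp2 1 hf P
    (fun a ha R => hP a ha R) hQ
  rw [e1] at h
  exact h hfull

variable {P : ι → (ratCurve W).toAffine.Point}

/-- The group on the fibres is in bijection with the tuples, matching fixed points. -/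
theorem card_fixing_range_family [Nonempty ι] (hA : AffineImageFamily W p P) :
    (Nat.card {g : (MonoidHom.pi fun i => fibHom W p (P i)).range // ∀ i, ∃ Q, g.1 i Q = Q} : ℝ) /
      Nat.card (MonoidHom.pi fun i => fibHom W p (P i)).range =
        fixDensityFamily p (Fintype.card ι) := by
  set f := MonoidHom.pi fun i => fibHom W p (P i) with hf
  choose Q₀ hQ₀ using fun i => exists_div W hp.out.ne_zero (up W (P i))
  set e := (torsBasis (p := p) W).equivFun.toAddEquiv with he
  have hsub : ∀ i, ∀ Q : Fib W p (P i),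
      Q.1 - Q₀ i ∈ Submodule.torsionBy ℤ ((ratCurve W)⁄Qb).Point (p : ℤ) := fun i Q => by
    rw [Submodule.mem_torsionBy_iff, natCast_zsmul, nsmul_sub, Q.2, hQ₀, sub_self]
  have hadd : ∀ i, ∀ v : Fin 2 → ZMod p, p • (Q₀ i + (e.symm v).1) = up W (P i) := fun i v => by
    rw [nsmul_add, hQ₀, ← natCast_zsmul (e.symm v).1,
      (Submodule.mem_torsionBy_iff _ _).mp (e.symm v).2, add_zero]
  let c : ∀ i, Fib W p (P i) ≃ (Fin 2 → ZMod p) := fun i =>
    { toFun := fun Q => e ⟨Q.1 - Q₀ i, hsub i Q⟩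
      invFun := fun v => ⟨Q₀ i + (e.symm v).1, hadd i v⟩
      left_inv := fun Q => Subtype.ext (by simp)
      right_inv := fun v => by simp }
  -- the element of an automorphism and translations
  have hex : ∀ a : GL (Fin 2) (ZMod p) × (ι → Fin 2 → ZMod p),
      ∃ g : f.range, ∀ i Q, c i (g.1 i Q) = a.1.val *ᵥ c i Q + a.2 i := by
    rintro ⟨M, t⟩
    let u : (Fin 2 → ZMod p) ≃+ (Fin 2 → ZMod p) :=
      { toFun := fun v => M.val *ᵥ v
        invFun := fun v => (M⁻¹).val *ᵥ v
        left_inv := fun v => by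
          show (M⁻¹).val *ᵥ (M.val *ᵥ v) = v
          rw [mulVec_mulVec, ← Units.val_mul, inv_mul_cancel, Units.val_one, one_mulVec]
        right_inv := fun v => by
          show M.val *ᵥ ((M⁻¹).val *ᵥ v) = v
          rw [mulVec_mulVec, ← Units.val_mul, mul_inv_cancel, Units.val_one, one_mulVec]
        map_add' := fun v w => mulVec_add _ v w }
    obtain ⟨σ, hσ, hσQ⟩ :=
      hA (fun i => ⟨Q₀ i, hQ₀ i⟩) ((e.trans u).trans e.symm) (fun i => e.symm (t i))
    refine ⟨⟨f σ, σ, rfl⟩, fun i Q => ?_⟩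
    have h1 : σ • (Q.1 - Q₀ i) = (((e.trans u).trans e.symm) ⟨Q.1 - Q₀ i, hsub i Q⟩).1 :=
      hσ ⟨Q.1 - Q₀ i, hsub i Q⟩
    have h2 : σ • Q.1 = σ • (Q.1 - Q₀ i) + σ • Q₀ i := by
      rw [← FA.Local.gal_smul_add (ratCurve W) σ, sub_add_cancel]
    have h3 : σ • Q.1 - Q₀ i = (e.symm (u (c i Q) + t i)).1 := by
      rw [map_add, Submodule.coe_add, h2, h1, hσQ i]
      show (e.symm (u (c i Q))).1 + (Q₀ i + (e.symm (t i)).1) - Q₀ i = _
      abel
    show e ⟨σ • Q.1 - Q₀ i, _⟩ = u (c i Q) + t i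
    refine e.symm.injective ?_
    rw [AddEquiv.symm_apply_apply]
    exact Subtype.ext h3
  choose Ψ hΨ using hex
  obtain ⟨i₀⟩ := ‹Nonempty ι›
  have hinj : Function.Injective Ψ := by
    intro a b hab
    have h : ∀ i v, a.1.val *ᵥ v + a.2 i = b.1.val *ᵥ v + b.2 i := fun i v => by
      have := hΨ a i ((c i).symm v)
      rw [hab, hΨ b, Equiv.apply_symm_apply] at this
      exact this.symm
    have ht : ∀ i, a.2 i = b.2 i := fun i => by simpa using h i 0
    refine Prod.ext (Units.ext (Matrix.ext fun k l => ?_)) (funext ht)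
    have := congrFun (h i₀ (Pi.single l 1)) k
    simpa [mulVec_single_one, ht] using this
  have hsurj : Function.Surjective Ψ := by
    rintro ⟨_, σ, rfl⟩
    have hdet : (curveRep p W σ).det ≠ 0 := fun h0 => by
      have h : (curveRep p W σ * curveRep p W σ⁻¹).det = 1 := by
        rw [← map_mul, mul_inv_cancel, map_one, det_one]
      rw [det_mul, h0, zero_mul] at h
      exact zero_ne_one h
    refine ⟨(Matrix.GeneralLinearGroup.mkOfDetNeZero _ hdet,
      fun i => c i (f σ i ⟨Q₀ i, hQ₀ i⟩)), Subtype.ext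
      (funext fun i => Equiv.ext fun Q => (c i).injective ?_)⟩
    rw [hΨ]
    show curveRep p W σ *ᵥ c i Q + c i (f σ i ⟨Q₀ i, hQ₀ i⟩) = c i (f σ i Q)
    have h1 : curveRep p W σ *ᵥ c i Q = e (σ • (⟨Q.1 - Q₀ i, hsub i Q⟩ :
        Submodule.torsionBy ℤ ((ratCurve W)⁄Qb).Point (p : ℤ))) := toMatrix_mulVec _ _
    rw [h1]
    show e _ + e _ = e _
    rw [← map_add]
    congr 1
    refine Subtype.ext ?_
    show σ • (Q.1 - Q₀ i) + (σ • Q₀ i - Q₀ i) = σ • Q.1 - Q₀ i
    rw [← add_sub_assoc, ← FA.Local.gal_smul_add (ratCurve W) σ, sub_add_cancel]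
  let E : GL (Fin 2) (ZMod p) × (ι → Fin 2 → ZMod p) ≃ f.range :=
    Equiv.ofBijective Ψ ⟨hinj, hsurj⟩
  have E' : {a : GL (Fin 2) (ZMod p) × (ι → Fin 2 → ZMod p) //
      ∀ i, ∃ v, a.1.val *ᵥ v + a.2 i = v} ≃ {g : f.range // ∀ i, ∃ Q, g.1 i Q = Q} :=
    E.subtypeEquiv fun a => by
      refine forall_congr' fun i => ⟨?_, ?_⟩
      · rintro ⟨v, hv⟩
        exact ⟨(c i).symm v, (c i).injective (by
          rw [show E a = Ψ a from rfl, hΨ, Equiv.apply_symm_apply, hv])⟩
      · rintro ⟨Q, hQ⟩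
        exact ⟨c i Q, (hΨ a i Q).symm.trans (congrArg (c i) hQ)⟩
  rw [← Nat.card_congr E', ← Nat.card_congr E, card_affine_fixing_family, Nat.card_prod,
    FA.TraceDist.card_gl2, Nat.card_fun, Nat.card_fun, Nat.card_fin, Nat.card_zmod, ZMod.card,
    fixDensityFamily, Nat.card_eq_fintype_card (α := ι), Nat.cast_mul, Nat.cast_mul,
    Nat.cast_sub (Nat.one_le_pow _ _ hp.out.pos), Nat.cast_sub (Nat.le_self_pow two_ne_zero p),
    Nat.cast_one]
  push_cast
  rfl

/-- **The density of the primes modulo which all the points are divisible by `p`.** -/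
theorem hasDirichletDensity_locSet_family [Nonempty ι] {x y : ι → ℚ}
    (h : ∀ i, (ratCurve W).toAffine.Nonsingular (x i) (y i))
    (hA : AffineImageFamily W p fun i => Affine.Point.some (x i) (y i) (h i)) :
    {v : HeightOneSpectrum (𝓞 ℚ) | ∀ i, LocDiv W p (Ideal.absNorm v.asIdeal) (x i)
      (y i)}.HasDirichletDensity (fixDensityFamily p (Fintype.card ι)) := by
  set f := MonoidHom.pi fun i => fibHom W p (.some (x i) (y i) (h i)) with hfdef
  have := fun i => finite_fib W hp.out.ne_zero (.some (x i) (y i) (h i))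
  let _ : Fintype f.range := Fintype.ofFinite _
  set π := f.rangeRestrict with hπdef
  let X : Set f.range := {g | ∀ i, ∃ Q, g.1 i Q = Q}
  have hX : ∀ g ∈ X, ∀ z, z * g * z⁻¹ ∈ X := fun g hg z i => by
    obtain ⟨Q, hQ⟩ := hg i
    refine ⟨z.1 i Q, ?_⟩
    show z.1 i (g.1 i ((z.1 i).symm (z.1 i Q))) = z.1 i Q
    rw [Equiv.symm_apply_apply, hQ]
  have hker : IsOpen (π.ker : Set GQ) := by
    have e1 : (π.ker : Set GQ) =
        ⋂ i, ((fibHom W p (.some (x i) (y i) (h i))).ker : Set GQ) := by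
      rw [hπdef, MonoidHom.ker_rangeRestrict]
      ext σ; simp [hfdef, funext_iff]
    rw [e1]
    exact isOpen_iInter_of_finite fun i => isOpen_ker_fibHom W hp.out.ne_zero _
  have hd := FA.Chebotarev.hasDirichletDensity_frobSet π (MonoidHom.rangeRestrict_surjective _)
    hker hX
  have hval : (Nat.card X : ℝ) / Fintype.card f.range = fixDensityFamily p (Fintype.card ι) := by
    rw [← Nat.card_eq_fintype_card (α := f.range)]
    exact card_fixing_range_family hA
  rw [hval] at hd
  set N : ℕ := W.Δ.natAbs * p * ∏ i, (x i).den * (y i).den with hN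
  have hN0 : N ≠ 0 := by
    have hΔ : W.Δ.natAbs ≠ 0 := fun e => (ratCurve W).isUnit_Δ.ne_zero (by
      simp [ratCurve, Int.natAbs_eq_zero.mp e])
    simp [hN, hΔ, hp.out.ne_zero, Finset.prod_ne_zero_iff]
  refine FA.TraceDist.hasDirichletDensity_congr hd (finite_absNorm_dvd hN0) fun v hv => ?_
  haveI := Fact.mk (FA.Chebotarev.absNorm_prime v)
  set q := Ideal.absNorm v.asIdeal
  have hnd : ∀ {m : ℕ}, m ∣ N → ¬ q ∣ m := fun hm e => hv (e.trans hm)
  have hgood : W.IsGoodPrimeFor q := fun e =>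
    hnd ((dvd_mul_right _ p).mul_right _) (Int.natCast_dvd.mp e)
  have hqp : q ≠ p := fun e => hnd ((dvd_mul_left p _).mul_right _) (e ▸ dvd_rfl)
  have hi : ∀ i, (x i).den * (y i).den ∣ N := fun i =>
    (Finset.dvd_prod_of_mem (fun i => (x i).den * (y i).den) (Finset.mem_univ i)).mul_left _
  have hx : ∀ i, ¬ q ∣ (x i).den := fun i => hnd ((dvd_mul_right _ _).trans (hi i))
  have hy : ∀ i, ¬ q ∣ (y i).den := fun i => hnd ((dvd_mul_left _ _).trans (hi i))
  constructor
  · intro hfr i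
    obtain ⟨A, hA⟩ := FA.Deform.exists_liesOverPrime (FA.Chebotarev.absNorm_prime v)
    obtain ⟨σ, hσ⟩ := FA.Deform.exists_isFrobeniusAt (FA.Chebotarev.absNorm_prime v) hA
    obtain ⟨Q, hQ⟩ := hfr A hA σ hσ i
    exact locDiv_of_exists_fixed (h i) hgood (hx i) (hy i) hA hσ hQ
  · intro hloc A hA σ hσ i
    obtain ⟨Q, hQ⟩ :=
      exists_fixed_of_locDiv W hp.out (h i) hgood hqp (hx i) (hy i) (hloc i) hA hσ
    exact ⟨Q, hQ⟩

end FA.BashmakovDensity

end
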